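/-
GATE-J27, node B0 (GJ27-FRONT2), part 1 (helper94).  Mathlib only.

For a finitely generated field extension `F / K` in characteristic zero with a finite transcendence
basis `x : ι → F`, the module of Kähler differentials `Ω[F⁄K]` has rank `#ι`
(`F / K(x)` is finite separable, hence formally étale; `K(x)` is a localisation of a polynomial
ring).  Consequently: `rank Ω[F⁄K] = 1` forces `F` to be finite over `K(t)` for a transcendental `t`.
-/
import Mathlib

set_option autoImplicit false

namespace Fermat.Agent.GJ27.Front

open KaehlerDifferential TensorProduct IntermediateField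

/-- The rank of the Kähler differentials is preserved by a formally étale extension of the top
ring. -/
theorem finrank_kaehler_of_formallyEtale (K E F : Type*) [Field K] [Field E] [Field F]
    [Algebra K E] [Algebra K F] [Algebra E F] [IsScalarTower K E F] [Algebra.FormallyEtale E F] :
    Module.finrank F Ω[F⁄K] = Module.finrank E Ω[E⁄K] := by
  rw [← (tensorKaehlerEquivOfFormallyEtale K E F).finrank_eq, Module.finrank_baseChange]

/-- The rank of the Kähler differentials of a purely transcendental extension. -/
theorem finrank_kaehler_fractionRing_mvPolynomial (K : Type*) [Field K] (ι : Type*) [Finite ι] :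
    Module.finrank (FractionRing (MvPolynomial ι K))
      Ω[FractionRing (MvPolynomial ι K)⁄K] = Nat.card ι := by
  have := Algebra.FormallyEtale.of_isLocalization (Rₘ := FractionRing (MvPolynomial ι K))
    (nonZeroDivisors (MvPolynomial ι K))
  rw [← (tensorKaehlerEquivOfFormallyEtale K (MvPolynomial ι K)
    (FractionRing (MvPolynomial ι K))).finrank_eq, Module.finrank_baseChange,
    Module.finrank_eq_nat_card_basis (mvPolynomialBasis K ι)]

/-- **Rank of the Kähler differentials = transcendence degree** for a finitely generated field
extension in characteristic zero. -/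
theorem finrank_kaehler_eq_card_of_isTranscendenceBasis {K F : Type*} [Field K] [Field F]
    [Algebra K F] [CharZero K] [Algebra.EssFiniteType K F] {ι : Type*} [Finite ι] {x : ι → F}
    (hx : IsTranscendenceBasis K x) :
    Module.finrank F Ω[F⁄K] = Nat.card ι := by
  classical
  let E := FractionRing (MvPolynomial ι K)
  let e : E ≃ₐ[K] adjoin K (Set.range x) := hx.1.aevalEquivField
  let φ : E →ₐ[K] F := (IntermediateField.val _).comp e.toAlgHom
  let _ : Algebra E F := φ.toRingHom.toAlgebra
  have : IsScalarTower K E F := IsScalarTower.of_algebraMap_eq fun a => by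
    rw [RingHom.algebraMap_toAlgebra]
    exact (φ.commutes a).symm
  have halg0 : Algebra.IsAlgebraic (adjoin K (Set.range x)) F := hx.isAlgebraic_field
  have : Algebra.IsAlgebraic E F := by
    refine Algebra.IsAlgebraic.of_ringHom_of_comp_eq (R := E) (S := adjoin K (Set.range x))
      (A := F) (B := F) e.toRingEquiv.toRingHom (RingHom.id F) e.surjective
      Function.injective_id ?_
    ext a
    rfl
  have : Algebra.EssFiniteType E F := Algebra.EssFiniteType.of_comp K E F
  have : Module.Finite E F := Algebra.finite_of_essFiniteType_of_isAlgebraic
  have : CharZero E := charZero_of_injective_algebraMap (algebraMap K E).injective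
  have : Algebra.FormallyEtale E F := Algebra.FormallyEtale.of_isSeparable E F
  rw [finrank_kaehler_of_formallyEtale K E F, finrank_kaehler_fractionRing_mvPolynomial]

/-- **A finitely generated field extension in characteristic zero whose Kähler differentials have
rank one is a function field in one variable.** -/
theorem exists_transcendental_finite {K F : Type*} [Field K] [Field F] [Algebra K F] [CharZero K]
    [Algebra.EssFiniteType K F] (h : Module.finrank F Ω[F⁄K] = 1) :
    ∃ t : F, Transcendental K t ∧ FiniteDimensional K⟮t⟯ F := by
  classical
  obtain ⟨s, hs⟩ := exists_isTranscendenceBasis K F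
  have hfin : Finite s := finite_of_isTranscendenceBasis hs
  have hcard : Nat.card s = 1 := by
    rw [← finrank_kaehler_eq_card_of_isTranscendenceBasis hs, h]
  obtain ⟨t, ht⟩ : ∃ t : F, s = {t} := by
    rw [Nat.card_coe_set_eq] at hcard
    exact Set.ncard_eq_one.mp hcard
  subst ht
  have htr : Transcendental K t := hs.1.transcendental ⟨t, rfl⟩
  refine ⟨t, htr, ?_⟩
  have halg : Algebra.IsAlgebraic (adjoin K (Set.range ((↑) : ({t} : Set F) → F))) F :=
    hs.isAlgebraic_field
  rw [Subtype.range_coe] at halg
  have : Algebra.EssFiniteType K⟮t⟯ F := Algebra.EssFiniteType.of_comp K K⟮t⟯ F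
  exact Algebra.finite_of_essFiniteType_of_isAlgebraic

end Fermat.Agent.GJ27.Front
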