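/-
GATE-J27, node B0 (GJ27-FRONT2), part 2 (helper94).

The front end of the specialisation side: under the binders of the frozen statement S27
(`K` algebraically closed of characteristic zero, `[IsCurveOver K F] [Algebra.EssFiniteType K F]`)

* `exists_isGen`                    : `F / K` has a generator (`F` is finite over `K(x₀)`);
* `isGen_of_transcendental`         : every transcendental element is a generator, and `F / K(t)` is
                                      (finite) separable;
* `nonempty_place`                  : `F / K` has a place;
* `finrank_riemannRochSpace_zero`   : `ℓ(0) = 1`;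
* `genusFF_eq_genusRR`, `gLat_eq_genusFF` : the prelude genus `genusFF K F = dim H¹(0)` is the
                                      Riemann genus `genusRR K F` and the lattice genus `gLat K t` of
                                      every transcendental `t`;
* `exists_riemann`                  : Riemann's theorem with `g = genusFF K F`.
-/
import Fermat.Agent.GJ27.Front.KaehlerRank
import Fermat.Agent.GJ.J1.GenusBridge2
import Fermat.Agent.GH.G6.Family
import Fermat.Agent.RR.Final

set_option autoImplicit false

open AlgebraicCurve IntermediateField

namespace Fermat.Agent.GJ27.Front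

open Fermat.Agent.RRh45 Fermat.Agent.S24 Fermat.Agent.GJ.J1 Fermat.Agent.GJ.J1.InstGen

variable (K F : Type*) [Field K] [Field F] [Algebra K F]

/-- **A curve in the sense of the prelude (`Ω[F⁄K]` free of rank one), finitely generated over a
field of characteristic zero, has a generator.** -/
theorem exists_isGen [CharZero K] [IsCurveOver K F] [Algebra.EssFiniteType K F] :
    ∃ x₀ : F, IsGen K x₀ := by
  obtain ⟨t, ht, hfin⟩ := exists_transcendental_finite (K := K) (F := F) IsCurveOver.finrank_kaehler
  exact ⟨t, ⟨ht, hfin⟩⟩

variable {K F}

/-- every transcendental element is a generator. -/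
theorem isGen_of_transcendental [CharZero K] [IsCurveOver K F] [Algebra.EssFiniteType K F]
    {t : F} (ht : Transcendental K t) : IsGen K t := by
  obtain ⟨x₀, hx₀⟩ := exists_isGen K F
  exact IsGen.of_transcendental x₀ ht

/-- `F / K(t)` is finite for every transcendental `t`. -/
theorem finiteDimensional_of_transcendental [CharZero K] [IsCurveOver K F]
    [Algebra.EssFiniteType K F] {t : F} (ht : Transcendental K t) : FiniteDimensional K⟮t⟯ F :=
  (isGen_of_transcendental ht).finite

/-- `F / K(t)` is separable (characteristic zero). -/
theorem isSeparable_of_transcendental [CharZero K] [IsCurveOver K F]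
    [Algebra.EssFiniteType K F] {t : F} (ht : Transcendental K t) : Algebra.IsSeparable K⟮t⟯ F := by
  have := finiteDimensional_of_transcendental ht
  have : CharZero K⟮t⟯ := charZero_of_injective_algebraMap (algebraMap K K⟮t⟯).injective
  infer_instance

variable (K F)

/-- `F / K` has a place. -/
theorem nonempty_place [CharZero K] [IsCurveOver K F] [Algebra.EssFiniteType K F] :
    Nonempty (Place K F) := by
  obtain ⟨x₀, hx₀⟩ := exists_isGen K F
  exact Fermat.Agent.GJ.FF.nonempty_place (K := K) x₀

/-- **`ℓ(0) = 1`**. -/
theorem finrank_riemannRochSpace_zero [IsAlgClosed K] [CharZero K] [IsCurveOver K F]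
    [Algebra.EssFiniteType K F] :
    Module.finrank K (riemannRochSpace (0 : Divisor K F)) = 1 := by
  obtain ⟨v⟩ := nonempty_place K F
  exact Fermat.Agent.GH.G6.finrank_riemannRochSpace_zero v
    (IsCurveOver.deg_eq_one_of_isAlgClosed v)

/-- **Riemann's theorem with the prelude genus** `genusFF K F`. -/
theorem exists_riemann [IsAlgClosed K] [CharZero K] [IsCurveOver K F]
    [Algebra.EssFiniteType K F] :
    ∃ c : ℤ, ∀ D : Divisor K F, c ≤ Divisor.degree D →
      (Module.finrank K (riemannRochSpace D) : ℤ) = Divisor.degree D + 1 - genusFF K F := by
  have : Nonempty (Place K F) := nonempty_place K F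
  obtain ⟨c, hc⟩ := Fermat.Agent.RR.exists_ell_eq K F
  refine ⟨c, fun D hD => ?_⟩
  have h := (hc D hD).1
  rw [finrank_riemannRochSpace_zero K F] at h
  exact_mod_cast h

/-- the prelude genus is the Riemann genus. -/
theorem genusFF_eq_genusRR [IsAlgClosed K] [CharZero K] [IsCurveOver K F]
    [Algebra.EssFiniteType K F] [Nonempty (Place K F)] :
    (genusFF K F : ℤ) = genusRR K F := by
  obtain ⟨c, hc⟩ := exists_riemann K F
  exact genusRR_unique hc

variable {K F}

/-- **the lattice genus of any transcendental `t` is the prelude genus** (`ℤ`-form). -/
theorem gLat_eq_genusFF [IsAlgClosed K] [CharZero K] [IsCurveOver K F]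
    [Algebra.EssFiniteType K F] {t : F} (ht : Transcendental K t) :
    (gLat K t : ℤ) = (genusFF K F : ℤ) := by
  have : Nonempty (Place K F) := nonempty_place K F
  have := finiteDimensional_of_transcendental ht
  have := isSeparable_of_transcendental ht
  rw [genusFF_eq_genusRR K F]
  exact (Fermat.Agent.GJ.J1.G0Genus.genusRR_eq_gLat_of_separable (K := K) t ht).symm

/-- `ℕ`-form. -/
theorem gLat_eq_genusFF_nat [IsAlgClosed K] [CharZero K] [IsCurveOver K F]
    [Algebra.EssFiniteType K F] {t : F} (ht : Transcendental K t) :
    gLat K t = genusFF K F := by
  exact_mod_cast gLat_eq_genusFF ht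

end Fermat.Agent.GJ27.Front
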